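/-
P-DS / P-ES1, row ES1-GAL (helper61): `U_ℓ` and the diamond operators commute with `G_ℚ` on the
torsion of `J₁(M)`, and with each other.

* clause (a) (`U_ℓ` vs Galois) and clause (b) (diamonds vs Galois) are UNCONDITIONAL;
* clause (c) (`U_ℓ` vs diamonds) is proved from `DiamondLiftStatement`: the diamond automorphism
  `aut d` of `ℚ̄ · F1 M` extends to an automorphism of `ℚ̄ · heckeField (F1 M) ℓ` commuting with
  `q ↦ q^ℓ` (analytically: `f ↦ f ∘ γ`, `γ ∈ Γ₀(M ℓ)` with upper left entry `≡ d`).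
-/
import Mathlib
import Fermat.Agent.H29.ES1.Interfaces
import Fermat.Agent.H97.QES3Abstract

set_option autoImplicit false
set_option linter.unusedSectionVars false

noncomputable section

namespace Fermat.Agent.H61.ES1

open ModularCurve AlgebraicCurve IntermediateField HahnSeries Fermat.Agent.H29.ES1

/-! ### Ring homomorphisms out of `L · F₀` are determined on generators -/

section Ext

variable {L : Type*} [Field L] [Algebra ℚ L] {F₀ : IntermediateField ℚ (LaurentSeries ℚ)}
  {T : Type*} [Field T]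

theorem ringHom_ext_laurentBaseChange (f₁ f₂ : ↥(laurentBaseChange L F₀) →+* T)
    (hc : ∀ a : L, f₁ (algebraMap L _ a) = f₂ (algebraMap L _ a))
    (hy : ∀ (y : LaurentSeries ℚ) (hy : y ∈ F₀),
      f₁ ⟨coeffEmb L y, coeffEmb_mem_laurentBaseChange L hy⟩ =
        f₂ ⟨coeffEmb L y, coeffEmb_mem_laurentBaseChange L hy⟩) : f₁ = f₂ := by
  have hle : Subfield.closure (Set.range (algebraMap L (LaurentSeries L)) ∪
      (⇑(coeffEmb L) '' (F₀ : Set (LaurentSeries ℚ)))) ≤
      (RingHom.eqLocusField f₁ f₂).map (SubringClass.subtype (laurentBaseChange L F₀)) := by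
    rw [Subfield.closure_le]
    rintro z (⟨a, rfl⟩ | ⟨y, hy', rfl⟩)
    · exact ⟨algebraMap L _ a, hc a, rfl⟩
    · exact ⟨⟨coeffEmb L y, coeffEmb_mem_laurentBaseChange L hy'⟩, hy y hy', rfl⟩
  refine RingHom.ext fun x => ?_
  obtain ⟨x', hx', hval⟩ := hle (mem_laurentBaseChange_iff.1 x.2)
  have : x' = x := Subtype.ext hval
  rw [← this]
  exact hx'

/-- Ring homomorphisms out of `adjoin ℚ S` are determined on `S`. -/
theorem ringHom_ext_adjoin {S : Set (LaurentSeries ℚ)}
    (f₁ f₂ : ↥(IntermediateField.adjoin ℚ S) →+* T)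
    (hS : ∀ (y : LaurentSeries ℚ) (hy : y ∈ S),
      f₁ ⟨y, IntermediateField.subset_adjoin ℚ S hy⟩ =
        f₂ ⟨y, IntermediateField.subset_adjoin ℚ S hy⟩) : f₁ = f₂ := by
  have hle : Subfield.closure (Set.range (algebraMap ℚ (LaurentSeries ℚ)) ∪ S) ≤
      (RingHom.eqLocusField f₁ f₂).map (SubringClass.subtype (IntermediateField.adjoin ℚ S)) := by
    rw [Subfield.closure_le]
    rintro z (⟨a, rfl⟩ | hz)
    · refine ⟨((a : ℚ) : ↥(IntermediateField.adjoin ℚ S)), ?_, ?_⟩
      · show f₁ _ = f₂ _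
        rw [map_ratCast, map_ratCast]
      · show ((((a : ℚ) : ↥(IntermediateField.adjoin ℚ S))) : LaurentSeries ℚ) =
          algebraMap ℚ (LaurentSeries ℚ) a
        rw [eq_ratCast (algebraMap ℚ (LaurentSeries ℚ)) a]
        rfl
    · exact ⟨⟨z, IntermediateField.subset_adjoin ℚ S hz⟩, hS z hz, rfl⟩
  refine RingHom.ext fun x => ?_
  obtain ⟨x', hx', hval⟩ := hle x.2
  have : x' = x := Subtype.ext hval
  rw [← this]
  exact hx'

variable (L) (F₀) in
/-- The embedding `F₀ → L · F₀` as a ring homomorphism. -/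
def coeffEmbHom : ↥F₀ →+* ↥(laurentBaseChange L F₀) where
  toFun y := ⟨coeffEmb L (y : LaurentSeries ℚ), coeffEmb_mem_laurentBaseChange L y.2⟩
  map_one' := Subtype.ext (map_one (coeffEmb L))
  map_mul' _ _ := Subtype.ext (map_mul (coeffEmb L) _ _)
  map_zero' := Subtype.ext (map_zero (coeffEmb L))
  map_add' _ _ := Subtype.ext (map_add (coeffEmb L) _ _)

@[simp]
theorem coe_coeffEmbHom (y : ↥F₀) :
    ((coeffEmbHom L F₀ y : ↥(laurentBaseChange L F₀)) : LaurentSeries L) =
      coeffEmb L (y : LaurentSeries ℚ) := rfl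

end Ext

/-! ### (a) `U_ℓ` commutes with the Galois action -/

section Galois

variable {L : Type*} [Field L] [Algebra ℚ L]
variable (F₀ : IntermediateField ℚ (LaurentSeries ℚ)) (ℓ : ℕ) [NeZero ℓ]

theorem intertwines_alphaGen (σ : L ≃ₐ[ℚ] L) :
    SemilinearAut.IntertwinesAlong (alphaGen L F₀ ℓ).toRingHom
      (arithmeticGalois F₀ σ) (arithmeticGalois (heckeField F₀ ℓ) σ) := fun x =>
  Subtype.ext <| by
    show coeffMap (σ : L →+* L) ((alphaGen L F₀ ℓ x : _) : LaurentSeries L)
      = ((alphaGen L F₀ ℓ (arithmeticGalois F₀ σ • x) : _) : LaurentSeries L)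
    rw [coe_alphaGen, coe_alphaGen, coe_arithmeticGalois_smul]

theorem intertwines_betaGen (σ : L ≃ₐ[ℚ] L) :
    SemilinearAut.IntertwinesAlong (betaGen L F₀ ℓ).toRingHom
      (arithmeticGalois F₀ σ) (arithmeticGalois (heckeField F₀ ℓ) σ) := fun x =>
  Subtype.ext <| by
    show coeffMap (σ : L →+* L) ((betaGen L F₀ ℓ x : _) : LaurentSeries L)
      = ((betaGen L F₀ ℓ (arithmeticGalois F₀ σ • x) : _) : LaurentSeries L)
    rw [coe_betaGen, coe_betaGen, coe_arithmeticGalois_smul, es1_coeffMap_qExpand]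

/-- The correspondence `α_* β^*` commutes with every pair of semilinear automorphisms
intertwined by `α` and `β`. -/
theorem heckeOperatorGen_smul {g : SemilinearAut L (laurentBaseChange L F₀)}
    {g' : SemilinearAut L (laurentBaseChange L (heckeField F₀ ℓ))}
    (hα : SemilinearAut.IntertwinesAlong (alphaGen L F₀ ℓ).toRingHom g g')
    (hβ : SemilinearAut.IntertwinesAlong (betaGen L F₀ ℓ).toRingHom g g')
    (x : Pic0 L (laurentBaseChange L F₀)) :
    heckeOperatorGen L F₀ ℓ (g • x) = g • heckeOperatorGen L F₀ ℓ x := by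
  by_cases h : HeckeInputsGen L F₀ ℓ
  · obtain ⟨hα', hβ', hP, hfin, hFI, hN⟩ := h
    rw [heckeOperatorGen_eq hα' hβ' hFI hfin hN]
    exact Fermat.Agent.H97.qes_pic0_correspondence_smul (betaGen L F₀ ℓ) (alphaGen L F₀ ℓ)
      hβ' hα' hFI hfin hN hβ hα x
  · rw [heckeOperatorGen_of_not h, AddMonoidHom.zero_apply, AddMonoidHom.zero_apply, smul_zero]

theorem heckeOperatorGen_galois (σ : L ≃ₐ[ℚ] L) (x : Pic0 L (laurentBaseChange L F₀)) :
    heckeOperatorGen L F₀ ℓ (σ • x) = σ • heckeOperatorGen L F₀ ℓ x := by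
  rw [galois_smul_pic0_def, galois_smul_pic0_def]
  exact heckeOperatorGen_smul F₀ ℓ (intertwines_alphaGen F₀ ℓ σ) (intertwines_betaGen F₀ ℓ σ) x

end Galois

/-! ### (b) diamonds commute with the Galois action -/

section Diamond

variable {L : Type*} [Field L] [Algebra ℚ L] (M : ℕ) [NeZero M]

theorem divisorExpansions_subset_full :
    divisorExpansions M ⊆ (modularFunctionFieldFull M : Set (LaurentSeries ℚ)) := by
  intro y hy
  rw [modularFunctionFieldFull]
  exact IntermediateField.subset_adjoin ℚ _ hy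

/-- The image of `aut d` on rational elements is fixed by the arithmetic Galois action. -/
theorem diamond_coeffEmb_fixed (dd : DiamondData L M) (d : (ZMod M)ˣ) (σ : L ≃ₐ[ℚ] L)
    (y : ↥(F1 M)) :
    arithmeticRingAut (F1 M) σ (dd.aut d (coeffEmbHom L (F1 M) y)) =
      dd.aut d (coeffEmbHom L (F1 M) y) := by
  have key : ((arithmeticRingAut (F1 M) σ).toRingHom.comp
      ((dd.aut d).toAlgHom.toRingHom.comp (coeffEmbHom L (F1 M)))) =
      ((dd.aut d).toAlgHom.toRingHom.comp (coeffEmbHom L (F1 M))) := by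
    refine ringHom_ext_adjoin _ _ fun z hz => ?_
    rcases hz with hz | ⟨a, rfl⟩
    · -- `z` is of level `Γ₀(M)`
      have hfull : coeffEmb L z ∈ laurentBaseChange L (modularFunctionFieldFull M) :=
        coeffEmb_mem_laurentBaseChange L (divisorExpansions_subset_full M hz)
      have h1 := dd.aut_full d ⟨coeffEmb L z,
        coeffEmb_mem_laurentBaseChange L (IntermediateField.subset_adjoin ℚ _ (Or.inl hz))⟩ hfull
      show arithmeticRingAut (F1 M) σ (dd.aut d ⟨coeffEmb L z, _⟩) = dd.aut d ⟨coeffEmb L z, _⟩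
      rw [h1]
      exact Subtype.ext (coeffMap_coeffEmb σ z)
    · have h1 := dd.aut_v d a
      show arithmeticRingAut (F1 M) σ (dd.aut d (vBar L M a)) = dd.aut d (vBar L M a)
      rw [h1]
      exact Subtype.ext (coeffMap_coeffEmb σ _)
  exact congrArg (fun f => f y) key

theorem diamond_comm_arithmetic (dd : DiamondData L M) (d : (ZMod M)ˣ) (σ : L ≃ₐ[ℚ] L)
    (x : ↥(laurentBaseChange L (F1 M))) :
    dd.aut d (arithmeticRingAut (F1 M) σ x) = arithmeticRingAut (F1 M) σ (dd.aut d x) := by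
  have key : ((dd.aut d).toAlgHom.toRingHom.comp (arithmeticRingAut (F1 M) σ).toRingHom) =
      ((arithmeticRingAut (F1 M) σ).toRingHom.comp (dd.aut d).toAlgHom.toRingHom) := by
    refine ringHom_ext_laurentBaseChange _ _ (fun a => ?_) (fun y hy => ?_)
    · show dd.aut d (arithmeticRingAut (F1 M) σ (algebraMap L _ a)) =
        arithmeticRingAut (F1 M) σ (dd.aut d (algebraMap L _ a))
      rw [arithmeticRingAut_algebraMap, AlgEquiv.commutes, AlgEquiv.commutes,
        arithmeticRingAut_algebraMap]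
    · show dd.aut d (arithmeticRingAut (F1 M) σ ⟨coeffEmb L y, _⟩) =
        arithmeticRingAut (F1 M) σ (dd.aut d ⟨coeffEmb L y, _⟩)
      have h1 : arithmeticRingAut (F1 M) σ
          (⟨coeffEmb L y, coeffEmb_mem_laurentBaseChange L hy⟩ : ↥(laurentBaseChange L (F1 M))) =
          ⟨coeffEmb L y, coeffEmb_mem_laurentBaseChange L hy⟩ :=
        Subtype.ext (coeffMap_coeffEmb σ y)
      rw [h1]
      exact (diamond_coeffEmb_fixed M dd d σ ⟨y, hy⟩).symm
  exact congrArg (fun f => f x) key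

/-- The diamond automorphisms commute with the arithmetic Galois automorphisms. -/
theorem diamondAut_comm_arithmeticGalois (d : (ZMod M)ˣ) (σ : L ≃ₐ[ℚ] L) :
    SemilinearAut.ofAlgAut (diamondAut L M d) * arithmeticGalois (F1 M) σ =
      arithmeticGalois (F1 M) σ * SemilinearAut.ofAlgAut (diamondAut L M d) := by
  unfold diamondAut
  split_ifs with h
  · refine Subtype.ext (Prod.ext (RingEquiv.ext fun x => ?_) ?_)
    · exact diamond_comm_arithmetic M h.some d σ x
    · show (1 : RingAut L) * σ.toRingEquiv = σ.toRingEquiv * 1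
      rw [one_mul, mul_one]
  · rw [MonoidHom.one_apply, map_one, one_mul, mul_one]

end Diamond

/-! ### (c) `U_ℓ` commutes with the diamonds, given the lift -/

theorem coe_deltaTors_apply (M : ℕ) [NeZero M] (n : ℕ) (d : (ZMod M)ˣ) (x : J1Tors M n) :
    ((deltaTors M n d x : J1Tors M n) : J1 M) =
      SemilinearAut.ofAlgAut (diamondAut (AlgebraicClosure ℚ) M d) • (x : J1 M) := rfl

theorem deltaTors_comm_galois (M : ℕ) [NeZero M] (n : ℕ) (d : (ZMod M)ˣ)
    (σ : AlgebraicClosure ℚ ≃ₐ[ℚ] AlgebraicClosure ℚ) :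
    deltaTors M n d * J1.torsionGaloisRep M n σ = J1.torsionGaloisRep M n σ * deltaTors M n d := by
  have h := congrArg (SemilinearAut.torsionRep (AlgebraicClosure ℚ) ↥(F1Bar M) n)
    (diamondAut_comm_arithmeticGalois (L := AlgebraicClosure ℚ) M d σ)
  exact ((SemilinearAut.torsionRep (AlgebraicClosure ℚ) ↥(F1Bar M) n).map_mul _ _).symm.trans
    (h.trans ((SemilinearAut.torsionRep (AlgebraicClosure ℚ) ↥(F1Bar M) n).map_mul _ _))

/-- **Diamond lift.**  The diamond automorphism `aut d` of `ℚ̄ · F1 M` extends to an automorphism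
of the field of the Hecke correspondence which commutes with `q ↦ q^ℓ`. -/
def DiamondLiftStatement : Prop :=
  ∀ (M : ℕ) [NeZero M], 5 ≤ M → ∀ (ℓ : ℕ) [NeZero ℓ], ℓ.Prime → ¬ ℓ ∣ M → ∀ d : (ZMod M)ˣ,
    ∃ g' : ↥(laurentBaseChange (AlgebraicClosure ℚ) (heckeField (F1 M) ℓ)) ≃ₐ[AlgebraicClosure ℚ]
        ↥(laurentBaseChange (AlgebraicClosure ℚ) (heckeField (F1 M) ℓ)),
      (∀ x, g' (alphaGen (AlgebraicClosure ℚ) (F1 M) ℓ x) =
        alphaGen (AlgebraicClosure ℚ) (F1 M) ℓ (diamondAut (AlgebraicClosure ℚ) M d x)) ∧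
      (∀ x, g' (betaGen (AlgebraicClosure ℚ) (F1 M) ℓ x) =
        betaGen (AlgebraicClosure ℚ) (F1 M) ℓ (diamondAut (AlgebraicClosure ℚ) M d x))

/-- The three clauses of `J1GalHeckeStatement`, the third one from `DiamondLiftStatement`. -/
theorem j1GalHecke_of_lift (hlift : DiamondLiftStatement) : J1GalHeckeStatement := by
  intro M _ hM n hn σ
  refine ⟨fun ℓ _ _ _ => ?_, fun d => ?_, fun ℓ _ d hℓ hℓM => ?_⟩
  · -- (a)
    refine LinearMap.ext fun x => Subtype.ext ?_
    rw [Module.End.mul_apply, Module.End.mul_apply, coe_heckeTors1,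
      J1.coe_torsionGaloisRep_apply, J1.coe_torsionGaloisRep_apply, coe_heckeTors1]
    exact heckeOperatorGen_galois (F1 M) ℓ σ (x : J1 M)
  · -- (b)
    exact deltaTors_comm_galois M n d σ
  · -- (c)
    obtain ⟨g', hα, hβ⟩ := hlift M hM ℓ hℓ hℓM d
    refine LinearMap.ext fun x => Subtype.ext ?_
    rw [Module.End.mul_apply, Module.End.mul_apply, coe_heckeTors1, coe_deltaTors_apply,
      coe_deltaTors_apply, coe_heckeTors1]
    exact heckeOperatorGen_smul (F1 M) ℓ (g := SemilinearAut.ofAlgAut _)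
      (g' := SemilinearAut.ofAlgAut g') (fun y => hα y) (fun y => hβ y) (x : J1 M)

end Fermat.Agent.H61.ES1
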