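/-
P-DS / P-ES1, row ES1-GAL (helper61), clause (c), part 1: generic machinery.

* `relStable_rat` : polynomial relations over `ℚ` between Laurent series represented by functions
  on `ℍ` are stable under a permutation of the generators induced by a self-map of `ℍ`
  (generic version of helper80's `core_rat`);
* `relStable_field` : the same over an arbitrary field `L ⊇ ℚ`;
* `exists_adjoinAut` : a permutation of a generating family which preserves the polynomial
  relations (together with its inverse) induces an automorphism of the generated field.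
-/
import Mathlib
import Fermat.Agent.H80.ES1.DiamondLD

set_option autoImplicit false
set_option linter.unusedSectionVars false

noncomputable section

open UpperHalfPlane ModularCurve IntermediateField
open scoped IntermediateField.algebraAdjoinAdjoin

namespace Fermat.Agent.H61.ES1

open Fermat.Agent.H29.ES1 Fermat.Agent.H44 Fermat.Agent.H80.ES1

/-! ### Stability of relations -/

section Stable

variable {ι : Type*}

/-- **Analytic core, generic form.**  If the Laurent series `gQ i` are the expansions of the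
functions `gF i` and a self-map `γ` of `ℍ` permutes the functions according to `π`, every
polynomial relation over `ℚ` between the `gQ i` also holds for the `gQ (π i)`. -/
theorem relStable_rat (gQ : ι → LaurentSeries ℚ) (gF : ι → (ℍ → ℂ))
    (hrel : ∀ i, LaurentRel (gF i) (coeffEmb ℂ (gQ i))) (π : ι → ι) (γ : ℍ → ℍ)
    (hγ : ∀ i z, gF i (γ z) = gF (π i) z) (P : MvPolynomial ι ℚ)
    (hP : MvPolynomial.aeval gQ P = 0) : MvPolynomial.aeval (gQ ∘ π) P = 0 := by
  have hC : MvPolynomial.aeval (fun i => coeffEmb ℂ (gQ i)) P = 0 := by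
    have := congrArg (coeffEmbA ℂ) hP
    rw [map_zero, ← AlgHom.comp_apply, MvPolynomial.comp_aeval] at this
    exact this
  have hrel0 := laurentRel_aeval gF (fun i => coeffEmb ℂ (gQ i)) hrel P
  rw [hC] at hrel0
  have hfun : MvPolynomial.aeval gF P = 0 := hrel0.unique_left laurentRel_zero
  have hfun' : MvPolynomial.aeval (gF ∘ π) P = 0 := by
    have := congrArg (precompHom γ) hfun
    rw [map_zero, ← AlgHom.comp_apply, MvPolynomial.comp_aeval] at this
    have hgen : (fun i => precompHom γ (gF i)) = gF ∘ π := by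
      funext i z
      exact hγ i z
    rw [hgen] at this
    exact this
  have hrel' := laurentRel_aeval (gF ∘ π) (fun i => coeffEmb ℂ (gQ (π i)))
    (fun i => hrel (π i)) P
  rw [hfun'] at hrel'
  have hC' : MvPolynomial.aeval (fun i => coeffEmb ℂ (gQ (π i))) P = 0 :=
    hrel'.unique_right laurentRel_zero
  apply Fermat.Agent.H80.ES1.coeffEmb_injective ℂ
  rw [map_zero]
  have := MvPolynomial.comp_aeval (R := ℚ) (f := gQ ∘ π) (coeffEmbA ℂ)
  have h2 := congrArg (fun φ => φ P) this
  simp only [AlgHom.comp_apply, coeffEmbA_apply] at h2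
  rw [h2]
  exact hC'

/-- Stability of the relations over an arbitrary field `L ⊇ ℚ` (linear disjointness). -/
theorem relStable_field (L : Type) [Field L] [Algebra ℚ L] (gQ : ι → LaurentSeries ℚ)
    (π : ι → ι)
    (hQ : ∀ P : MvPolynomial ι ℚ, MvPolynomial.aeval gQ P = 0 →
      MvPolynomial.aeval (gQ ∘ π) P = 0)
    (P : MvPolynomial ι L) (hP : MvPolynomial.aeval (fun i => coeffEmb L (gQ i)) P = 0) :
    MvPolynomial.aeval (fun i => coeffEmb L (gQ (π i))) P = 0 := by
  let b := Module.Basis.ofVectorSpace ℚ L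
  ext n
  rw [HahnSeries.coeff_zero]
  apply b.repr.injective
  rw [map_zero]
  ext k
  rw [Finsupp.zero_apply]
  obtain ⟨Q, hQ'⟩ := exists_coord_poly L (b.coord k) P
  have hQ0 : MvPolynomial.aeval gQ Q = 0 := by
    ext n'
    rw [← hQ' gQ n', hP, HahnSeries.coeff_zero, HahnSeries.coeff_zero, map_zero]
  have hQ1 := hQ Q hQ0
  have := hQ' (gQ ∘ π) n
  rw [hQ1, HahnSeries.coeff_zero] at this
  exact this

end Stable

/-! ### Automorphisms from permutations of generators -/

section Aut

variable {ι : Type*} (L : Type*) [Field L] {K : Type*} [Field K] [Algebra L K] (g : ι → K)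

/-- Evaluation of polynomials at the generators, onto the algebra they generate. -/
def dlEval : MvPolynomial ι L →ₐ[L] Algebra.adjoin L (Set.range g) :=
  (MvPolynomial.aeval g).codRestrict (Algebra.adjoin L (Set.range g))
    (fun P => by
      rw [Algebra.adjoin_range_eq_range_aeval]
      exact ⟨P, rfl⟩)

theorem coe_dlEval (P : MvPolynomial ι L) :
    ((dlEval L g P : Algebra.adjoin L (Set.range g)) : K) = MvPolynomial.aeval g P := rfl

theorem dlEval_surjective : Function.Surjective (dlEval L g) := by
  rintro ⟨a, ha⟩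
  have ha' := ha
  rw [Algebra.adjoin_range_eq_range_aeval] at ha'
  obtain ⟨P, hP⟩ := ha'
  exact ⟨P, Subtype.ext hP⟩

theorem dlEval_eq_zero_iff (P : MvPolynomial ι L) :
    dlEval L g P = 0 ↔ MvPolynomial.aeval g P = 0 :=
  ⟨fun h => by
    have := congrArg Subtype.val h
    exact this, fun h => Subtype.ext h⟩

/-- The ideal of relations. -/
def dlRel : Ideal (MvPolynomial ι L) := RingHom.ker (dlEval L g)

theorem mem_dlRel (P : MvPolynomial ι L) :
    P ∈ dlRel L g ↔ MvPolynomial.aeval g P = 0 := by
  rw [dlRel, RingHom.mem_ker]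
  exact dlEval_eq_zero_iff L g P

/-- The property that `π` preserves the relations between the generators. -/
def RelStable (π : ι → ι) : Prop :=
  ∀ P : MvPolynomial ι L, MvPolynomial.aeval g P = 0 → MvPolynomial.aeval (g ∘ π) P = 0

variable {L g}

theorem RelStable.rename_mem {π : ι → ι} (h : RelStable L g π) {P : MvPolynomial ι L}
    (hP : P ∈ dlRel L g) : MvPolynomial.rename π P ∈ dlRel L g := by
  rw [mem_dlRel] at hP ⊢
  rw [MvPolynomial.aeval_rename]
  exact h P hP

/-- The endomorphism of the quotient by the relations induced by `π`. -/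
def dlQuotHom {π : ι → ι} (h : RelStable L g π) :
    (MvPolynomial ι L ⧸ dlRel L g) →ₐ[L] (MvPolynomial ι L ⧸ dlRel L g) :=
  Ideal.Quotient.liftₐ (dlRel L g)
    ((Ideal.Quotient.mkₐ L (dlRel L g)).comp (MvPolynomial.rename π))
    (fun P hP => by
      rw [AlgHom.comp_apply, Ideal.Quotient.mkₐ_eq_mk, Ideal.Quotient.eq_zero_iff_mem]
      exact h.rename_mem hP)

theorem dlQuotHom_mk {π : ι → ι} (h : RelStable L g π) (P : MvPolynomial ι L) :
    dlQuotHom h (Ideal.Quotient.mk (dlRel L g) P)
      = Ideal.Quotient.mk (dlRel L g) (MvPolynomial.rename π P) := rfl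

theorem dlQuotHom_comp {π π' : ι → ι} (h : RelStable L g π) (h' : RelStable L g π')
    (hππ' : ∀ i, π (π' i) = i) :
    (dlQuotHom h).comp (dlQuotHom h') = AlgHom.id L _ := by
  apply Ideal.Quotient.algHom_ext
  apply MvPolynomial.algHom_ext
  intro i
  simp only [AlgHom.comp_apply, Ideal.Quotient.mkₐ_eq_mk, dlQuotHom_mk, MvPolynomial.rename_X,
    hππ', AlgHom.id_apply]

/-- The automorphism of the quotient by the relations. -/
def dlQuotAut {π π' : ι → ι} (h : RelStable L g π) (h' : RelStable L g π')
    (hππ' : ∀ i, π (π' i) = i) (hπ'π : ∀ i, π' (π i) = i) :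
    (MvPolynomial ι L ⧸ dlRel L g) ≃ₐ[L] (MvPolynomial ι L ⧸ dlRel L g) :=
  AlgEquiv.ofAlgHom (dlQuotHom h) (dlQuotHom h') (dlQuotHom_comp h h' hππ')
    (dlQuotHom_comp h' h hπ'π)

theorem dlQuotAut_apply {π π' : ι → ι} (h : RelStable L g π) (h' : RelStable L g π')
    (hππ' : ∀ i, π (π' i) = i) (hπ'π : ∀ i, π' (π i) = i) (x : MvPolynomial ι L ⧸ dlRel L g) :
    dlQuotAut h h' hππ' hπ'π x = dlQuotHom h x := rfl

theorem dlQuotAut_mk_X {π π' : ι → ι} (h : RelStable L g π) (h' : RelStable L g π')
    (hππ' : ∀ i, π (π' i) = i) (hπ'π : ∀ i, π' (π i) = i) (i : ι) :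
    dlQuotAut h h' hππ' hπ'π (Ideal.Quotient.mk (dlRel L g) (MvPolynomial.X i))
      = Ideal.Quotient.mk (dlRel L g) (MvPolynomial.X (π i)) := by
  rw [dlQuotAut_apply, dlQuotHom_mk, MvPolynomial.rename_X]

variable (L g)

/-- The quotient by the relations is the algebra generated by the generators. -/
def dlQuotEquiv : (MvPolynomial ι L ⧸ dlRel L g) ≃ₐ[L] Algebra.adjoin L (Set.range g) :=
  Ideal.quotientKerAlgEquivOfSurjective (dlEval_surjective L g)

theorem dlQuotEquiv_mk (P : MvPolynomial ι L) :
    dlQuotEquiv L g (Ideal.Quotient.mk (dlRel L g) P) = dlEval L g P := rfl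

/-- A generator as an element of the algebra generated by the generators. -/
def dlGenA (i : ι) : Algebra.adjoin L (Set.range g) :=
  ⟨g i, Algebra.subset_adjoin ⟨i, rfl⟩⟩

theorem dlQuotEquiv_mk_X (i : ι) :
    dlQuotEquiv L g (Ideal.Quotient.mk (dlRel L g) (MvPolynomial.X i)) = dlGenA L g i := by
  rw [dlQuotEquiv_mk]
  apply Subtype.ext
  rw [coe_dlEval, MvPolynomial.aeval_X]
  rfl

variable {L g}

/-- The automorphism of the algebra generated by the generators. -/
def dlAlgAut {π π' : ι → ι} (h : RelStable L g π) (h' : RelStable L g π')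
    (hππ' : ∀ i, π (π' i) = i) (hπ'π : ∀ i, π' (π i) = i) :
    Algebra.adjoin L (Set.range g) ≃ₐ[L] Algebra.adjoin L (Set.range g) :=
  ((dlQuotEquiv L g).symm.trans (dlQuotAut h h' hππ' hπ'π)).trans (dlQuotEquiv L g)

theorem dlAlgAut_genA {π π' : ι → ι} (h : RelStable L g π) (h' : RelStable L g π')
    (hππ' : ∀ i, π (π' i) = i) (hπ'π : ∀ i, π' (π i) = i) (i : ι) :
    dlAlgAut h h' hππ' hπ'π (dlGenA L g i) = dlGenA L g (π i) := by
  have h1 : (dlQuotEquiv L g).symm (dlGenA L g i)
      = Ideal.Quotient.mk (dlRel L g) (MvPolynomial.X i) := by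
    rw [AlgEquiv.symm_apply_eq, dlQuotEquiv_mk_X]
  show dlQuotEquiv L g (dlQuotAut h h' hππ' hπ'π ((dlQuotEquiv L g).symm (dlGenA L g i))) = _
  rw [h1, dlQuotAut_mk_X, dlQuotEquiv_mk_X]

/-- The automorphism of the field generated by the generators. -/
def dlFieldAut {π π' : ι → ι} (h : RelStable L g π) (h' : RelStable L g π')
    (hππ' : ∀ i, π (π' i) = i) (hπ'π : ∀ i, π' (π i) = i) :
    IntermediateField.adjoin L (Set.range g) ≃ₐ[L] IntermediateField.adjoin L (Set.range g) :=
  IsFractionRing.algEquivOfAlgEquiv (dlAlgAut h h' hππ' hπ'π)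

variable (L g) in
/-- A generator as an element of the field generated by the generators. -/
def dlGenK (i : ι) : IntermediateField.adjoin L (Set.range g) :=
  ⟨g i, IntermediateField.subset_adjoin _ _ ⟨i, rfl⟩⟩

theorem dlFieldAut_genK {π π' : ι → ι} (h : RelStable L g π) (h' : RelStable L g π')
    (hππ' : ∀ i, π (π' i) = i) (hπ'π : ∀ i, π' (π i) = i) (i : ι) :
    dlFieldAut h h' hππ' hπ'π (dlGenK L g i) = dlGenK L g (π i) := by
  have h1 : dlGenK L g i = algebraMap (Algebra.adjoin L (Set.range g))
      (IntermediateField.adjoin L (Set.range g)) (dlGenA L g i) := rfl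
  have h2 : dlGenK L g (π i) = algebraMap (Algebra.adjoin L (Set.range g))
      (IntermediateField.adjoin L (Set.range g)) (dlGenA L g (π i)) := rfl
  rw [h1, h2]
  show IsFractionRing.algEquivOfAlgEquiv (dlAlgAut h h' hππ' hπ'π) _ = _
  rw [IsFractionRing.algEquivOfAlgEquiv_algebraMap, dlAlgAut_genA]

/-- **Automorphisms from permutations.**  A permutation of a generating family preserving the
polynomial relations (together with its inverse) induces an automorphism of the generated
field. -/
theorem exists_adjoinAut {π π' : ι → ι} (h : RelStable L g π) (h' : RelStable L g π')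
    (hππ' : ∀ i, π (π' i) = i) (hπ'π : ∀ i, π' (π i) = i) :
    ∃ σ : IntermediateField.adjoin L (Set.range g) ≃ₐ[L]
        IntermediateField.adjoin L (Set.range g),
      ∀ i, ((σ (dlGenK L g i) : IntermediateField.adjoin L (Set.range g)) : K) = g (π i) :=
  ⟨dlFieldAut h h' hππ' hπ'π, fun i => by rw [dlFieldAut_genK]; rfl⟩

end Aut

/-! ### Ring homomorphisms out of an adjoined field -/

section Ext

variable {L : Type*} [Field L] {K : Type*} [Field K] [Algebra L K] {T : Type*} [Field T]

/-- Ring homomorphisms out of `adjoin L S` are determined on `L` and `S`. -/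
theorem ringHom_ext_adjoin_gen {S : Set K}
    (f₁ f₂ : ↥(IntermediateField.adjoin L S) →+* T)
    (hc : ∀ a : L, f₁ (algebraMap L _ a) = f₂ (algebraMap L _ a))
    (hS : ∀ (y : K) (hy : y ∈ S),
      f₁ ⟨y, IntermediateField.subset_adjoin L S hy⟩ =
        f₂ ⟨y, IntermediateField.subset_adjoin L S hy⟩) : f₁ = f₂ := by
  have hle : Subfield.closure (Set.range (algebraMap L K) ∪ S) ≤
      (RingHom.eqLocusField f₁ f₂).map (SubringClass.subtype (IntermediateField.adjoin L S)) := by
    rw [Subfield.closure_le]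
    rintro z (⟨a, rfl⟩ | hz)
    · exact ⟨algebraMap L _ a, hc a, rfl⟩
    · exact ⟨⟨z, IntermediateField.subset_adjoin L S hz⟩, hS z hz, rfl⟩
  refine RingHom.ext fun x => ?_
  obtain ⟨x', hx', hval⟩ := hle x.2
  have : x' = x := Subtype.ext hval
  rw [← this]
  exact hx'

end Ext

end Fermat.Agent.H61.ES1

end
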