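/-
P-DS / P-ES1, row ES1-GAL (helper61), clause (c), part 2: the analytic input.

The generators `j(q^d)`, `v_a` of `F1 M` and their images under `q ↦ q^ℓ` are simultaneously
permuted by a suitable element of `Γ₀(M ℓ)`; hence the polynomial relations between them are
stable under the diamond permutations.
-/
import Mathlib
import Fermat.Agent.H61.ES1.DiamondLiftGen
import Fermat.Agent.H29.ES1.Hecke
import Fermat.Agent.H44.Gen11.Scale

set_option autoImplicit false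
set_option linter.unusedSectionVars false

noncomputable section

open UpperHalfPlane ModularCurve CongruenceSubgroup
open scoped MatrixGroups

namespace Fermat.Agent.H61.ES1

open Fermat.Agent.H29.ES1 Fermat.Agent.H44 Fermat.Agent.H23 Fermat.Agent.H80.ES1
open Fermat.Agent.H18

variable (M : ℕ) [NeZero M]

/-- Every element of `Γ₀(M)` with upper left entry `≡ u` permutes the generators as `u`. -/
theorem gensFun_smul_of_mem (hV : VFunStatement) (hM : 3 ≤ M) (u : (ZMod M)ˣ)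
    (γ : SL(2, ℤ)) (hγ : γ ∈ Gamma0 M)
    (hu : (((γ : Matrix (Fin 2) (Fin 2) ℤ) 0 0 : ℤ) : ZMod M) = (u : ZMod M))
    (i : GenIdx M) (z : ℍ) :
    gensFun M i (γ • z) = gensFun M (genPerm M u i) z := by
  cases i with
  | inl d =>
    have := neZero_of_dvd_level M d.2
    exact Fermat.Agent.H82.sep_jfun_scaleH_smul M d.1 d.2 γ hγ z
  | inr a =>
    show VFun M (a : ZMod M) (γ • z) = VFun M ((u * a : (ZMod M)ˣ) : ZMod M) z
    rw [(hV M (a : ZMod M) (unit_ne_zero M hM a)).2.2.1 γ hγ z, hu, Units.val_mul]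

/-- Conjugation by `diag(ℓ, 1)`: for `ℓ ∣ c(γ)` there is `δ ∈ SL(2, ℤ)` with the same upper left
entry, `ℓ c(δ) = c(γ)` and `ℓ · γ z = δ (ℓ z)`. -/
theorem exists_conj_scaleH (ℓ : ℕ) [NeZero ℓ] (γ : SL(2, ℤ))
    (hℓ : (ℓ : ℤ) ∣ (γ : Matrix (Fin 2) (Fin 2) ℤ) 1 0) :
    ∃ δ : SL(2, ℤ), (δ : Matrix (Fin 2) (Fin 2) ℤ) 0 0 = (γ : Matrix (Fin 2) (Fin 2) ℤ) 0 0 ∧
      (ℓ : ℤ) * (δ : Matrix (Fin 2) (Fin 2) ℤ) 1 0 = (γ : Matrix (Fin 2) (Fin 2) ℤ) 1 0 ∧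
      ∀ z : ℍ, scaleH ℓ (γ • z) = δ • scaleH ℓ z := by
  have hd0 : 0 < ℓ := Nat.pos_of_ne_zero (NeZero.ne ℓ)
  have hne : (((ℓ : ℤ) : ℝ) * ((1 : ℤ) : ℝ)) ≠ 0 := by simp [hd0.ne']
  obtain ⟨c', hc'⟩ := hℓ
  have hdet : γ 0 0 * γ 1 1 - γ 0 1 * γ 1 0 = 1 := by
    have := γ.det_coe
    rwa [Matrix.det_fin_two] at this
  let δ : SL(2, ℤ) := ⟨!![γ 0 0, ℓ * γ 0 1; c', γ 1 1], by
    rw [Matrix.det_fin_two_of]
    rw [hc'] at hdet
    linear_combination hdet⟩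
  have key := mapGL_mul_upperGL_eq δ γ ℓ 0 1 ℓ 0 1 hne hne
    (by simp [δ]; ring) (by simp [δ]) (by simp [δ]; rw [hc']; ring) (by simp [δ])
  refine ⟨δ, by simp [δ], by simp [δ, hc'], fun z => ?_⟩
  calc scaleH ℓ (γ • z)
      = upperGL ((ℓ : ℤ) : ℝ) ((0 : ℤ) : ℝ) ((1 : ℤ) : ℝ) hne • (γ • z) := by
        rw [Fermat.Agent.H82.sep_scaleH_eq ℓ hne]
    _ = (upperGL ((ℓ : ℤ) : ℝ) ((0 : ℤ) : ℝ) ((1 : ℤ) : ℝ) hne * (γ : GL (Fin 2) ℝ)) • z := by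
        rw [mul_smul]; rfl
    _ = ((δ : GL (Fin 2) ℝ) * upperGL ((ℓ : ℤ) : ℝ) ((0 : ℤ) : ℝ) ((1 : ℤ) : ℝ) hne) • z := by
        rw [key]
    _ = δ • (upperGL ((ℓ : ℤ) : ℝ) ((0 : ℤ) : ℝ) ((1 : ℤ) : ℝ) hne • z) := by
        rw [mul_smul]; rfl
    _ = δ • scaleH ℓ z := by rw [Fermat.Agent.H82.sep_scaleH_eq ℓ hne]

/-- For every unit `u` mod `M` there is an element of `Γ₀(M ℓ)` with upper left entry `≡ u`
mod `M`. -/
theorem exists_Gamma0_mul_upperLeft (ℓ : ℕ) [NeZero ℓ] (u : (ZMod M)ˣ) :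
    ∃ γ : SL(2, ℤ), (((M * ℓ : ℕ) : ℤ) ∣ (γ : Matrix (Fin 2) (Fin 2) ℤ) 1 0) ∧
      (((γ : Matrix (Fin 2) (Fin 2) ℤ) 0 0 : ℤ) : ZMod M) = (u : ZMod M) := by
  haveI : NeZero (M * ℓ) := ⟨mul_ne_zero (NeZero.ne M) (NeZero.ne ℓ)⟩
  obtain ⟨u', hu'⟩ := ZMod.unitsMap_surjective (Dvd.intro ℓ rfl : M ∣ M * ℓ) u
  obtain ⟨γ, hγ, hγu⟩ := exists_Gamma0_upperLeft (M * ℓ) u'
  refine ⟨γ, ?_, ?_⟩
  · rw [Gamma0_mem, ZMod.intCast_zmod_eq_zero_iff_dvd] at hγ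
    exact hγ
  · have h1 := congrArg (ZMod.cast : ZMod (M * ℓ) → ZMod M) hγu
    rw [ZMod.cast_intCast (Dvd.intro ℓ rfl : M ∣ M * ℓ)] at h1
    rw [h1, ← hu', ZMod.unitsMap_val]

/-! ### The generators of the Hecke correspondence field -/

variable (ℓ : ℕ) [NeZero ℓ]

/-- The generators of `heckeField (F1 M) ℓ` as Laurent series over `ℚ`. -/
def gens2Q : GenIdx M ⊕ GenIdx M → LaurentSeries ℚ
  | Sum.inl i => gensQ M i
  | Sum.inr i => qExpand ℚ ℓ (gensQ M i)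

/-- The holomorphic functions representing the generators. -/
def gens2Fun : GenIdx M ⊕ GenIdx M → (ℍ → ℂ)
  | Sum.inl i => gensFun M i
  | Sum.inr i => gensFun M i ∘ scaleH ℓ

/-- The permutation of the generators attached to a unit `u`. -/
def gen2Perm (u : (ZMod M)ˣ) : GenIdx M ⊕ GenIdx M → GenIdx M ⊕ GenIdx M :=
  Sum.map (genPerm M u) (genPerm M u)

theorem gen2Perm_inv_left (u : (ZMod M)ˣ) (i : GenIdx M ⊕ GenIdx M) :
    gen2Perm M u (gen2Perm M u⁻¹ i) = i := by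
  have h : genPerm M u ∘ genPerm M u⁻¹ = id := by
    rw [← genPerm_mul, mul_inv_cancel, genPerm_one]
  rcases i with i | i
  · exact congrArg Sum.inl (congrFun h i)
  · exact congrArg Sum.inr (congrFun h i)

theorem gen2Perm_inv_right (u : (ZMod M)ˣ) (i : GenIdx M ⊕ GenIdx M) :
    gen2Perm M u⁻¹ (gen2Perm M u i) = i := by
  have := gen2Perm_inv_left M u⁻¹ i
  rwa [inv_inv] at this

theorem laurentRel_gens2 (hV : VFunStatement) (hM : 3 ≤ M) (i : GenIdx M ⊕ GenIdx M) :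
    LaurentRel (gens2Fun M ℓ i) (coeffEmb ℂ (gens2Q M ℓ i)) := by
  rcases i with i | i
  · exact laurentRel_gens M hV hM i
  · show LaurentRel (gensFun M i ∘ scaleH ℓ) (coeffEmb ℂ (qExpand ℚ ℓ (gensQ M i)))
    rw [es1_coeffEmb_qExpand]
    exact (laurentRel_gens M hV hM i).scale ℓ

/-- The generators are permuted by a suitable element of `Γ₀(M ℓ)`. -/
theorem exists_gamma_perm2 (hV : VFunStatement) (hM : 3 ≤ M) (u : (ZMod M)ˣ) :
    ∃ γ : SL(2, ℤ), ∀ (i : GenIdx M ⊕ GenIdx M) (z : ℍ),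
      gens2Fun M ℓ i (γ • z) = gens2Fun M ℓ (gen2Perm M u i) z := by
  obtain ⟨γ, hγ, hu⟩ := exists_Gamma0_mul_upperLeft M ℓ u
  have hγM : γ ∈ Gamma0 M := by
    rw [Gamma0_mem, ZMod.intCast_zmod_eq_zero_iff_dvd]
    exact dvd_trans (by exact_mod_cast (Dvd.intro ℓ rfl : M ∣ M * ℓ)) hγ
  have hℓγ : (ℓ : ℤ) ∣ (γ : Matrix (Fin 2) (Fin 2) ℤ) 1 0 :=
    dvd_trans (by exact_mod_cast (Dvd.intro_left M rfl : ℓ ∣ M * ℓ)) hγ
  obtain ⟨δ, hδ0, hδ1, hδ⟩ := exists_conj_scaleH ℓ γ hℓγ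
  have hδM : δ ∈ Gamma0 M := by
    rw [Gamma0_mem, ZMod.intCast_zmod_eq_zero_iff_dvd]
    have h1 : ((M * ℓ : ℕ) : ℤ) ∣ (ℓ : ℤ) * (δ : Matrix (Fin 2) (Fin 2) ℤ) 1 0 := by
      rw [hδ1]; exact hγ
    have hℓ0 : (ℓ : ℤ) ≠ 0 := by exact_mod_cast NeZero.ne ℓ
    rw [Nat.cast_mul, mul_comm (M : ℤ) (ℓ : ℤ)] at h1
    exact (mul_dvd_mul_iff_left hℓ0).1 h1
  refine ⟨γ, fun i z => ?_⟩
  rcases i with i | i
  · exact gensFun_smul_of_mem M hV hM u γ hγM hu i z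
  · show gensFun M i (scaleH ℓ (γ • z)) = gensFun M (genPerm M u i) (scaleH ℓ z)
    rw [hδ z]
    exact gensFun_smul_of_mem M hV hM u δ hδM (by rw [hδ0]; exact hu) i (scaleH ℓ z)

/-- **Analytic core for the Hecke correspondence field.** -/
theorem relStable_gens2Q (hV : VFunStatement) (hM : 3 ≤ M) (u : (ZMod M)ˣ)
    (P : MvPolynomial (GenIdx M ⊕ GenIdx M) ℚ)
    (hP : MvPolynomial.aeval (gens2Q M ℓ) P = 0) :
    MvPolynomial.aeval (gens2Q M ℓ ∘ gen2Perm M u) P = 0 := by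
  obtain ⟨γ, hγ⟩ := exists_gamma_perm2 M ℓ hV hM u
  exact relStable_rat (gens2Q M ℓ) (gens2Fun M ℓ) (laurentRel_gens2 M ℓ hV hM)
    (gen2Perm M u) (fun z => γ • z) hγ P hP

/-- The generators over `L`. -/
def gens2L (L : Type) [Field L] [Algebra ℚ L] : GenIdx M ⊕ GenIdx M → LaurentSeries L :=
  fun i => coeffEmb L (gens2Q M ℓ i)

/-- Stability of the relations over `L`. -/
theorem relStable_gens2L (L : Type) [Field L] [Algebra ℚ L] (hV : VFunStatement) (hM : 3 ≤ M)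
    (u : (ZMod M)ˣ) : RelStable L (gens2L M ℓ L) (gen2Perm M u) :=
  fun P hP => relStable_field L (gens2Q M ℓ) (gen2Perm M u)
    (relStable_gens2Q M ℓ hV hM u) P hP

end Fermat.Agent.H61.ES1

end
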