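/-
P-DS / P-ES1, row ES1-GAL (helper61), clause (c), part 3: the diamond lift.

`theorem diamondLift (hV : VFunStatement) : DiamondLiftStatement` and hence
`theorem j1GalHecke (hV : VFunStatement) : J1GalHeckeStatement`.
-/
import Mathlib
import Fermat.Agent.H61.ES1.DiamondLiftAn
import Fermat.Agent.H61.ES1.GalHecke
import Fermat.Agent.H80.ES1.Diamond

set_option autoImplicit false
set_option linter.unusedSectionVars false

noncomputable section

open UpperHalfPlane ModularCurve CongruenceSubgroup IntermediateField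
open scoped MatrixGroups

namespace Fermat.Agent.H61.ES1

open Fermat.Agent.H29.ES1 Fermat.Agent.H80.ES1

/-! ### Generators of the base change -/

section Gen

variable (L : Type) [Field L] [Algebra ℚ L]

theorem coeffEmb_algebraMap_rat' (c : ℚ) :
    coeffEmb L (algebraMap ℚ (LaurentSeries ℚ) c)
      = algebraMap L (LaurentSeries L) (algebraMap ℚ L c) := by
  rw [algebraMap_laurentSeries_eq_single, algebraMap_laurentSeries_eq_single, coeffEmb,
    coeffMap_single]

/-- The base change of a field generated by `S` is generated by the image of `S`. -/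
theorem laurentBaseChange_adjoin (S : Set (LaurentSeries ℚ)) :
    laurentBaseChange L (IntermediateField.adjoin ℚ S)
      = IntermediateField.adjoin L (⇑(coeffEmb L) '' S) := by
  apply le_antisymm
  · rw [laurentBaseChange, IntermediateField.adjoin_le_iff]
    rintro _ ⟨x, hx, rfl⟩
    induction hx using IntermediateField.adjoin_induction with
    | mem x hx => exact IntermediateField.subset_adjoin _ _ ⟨x, hx, rfl⟩
    | algebraMap c =>
      rw [coeffEmb_algebraMap_rat']
      exact IntermediateField.algebraMap_mem _ _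
    | add x y _ _ hx hy => rw [map_add]; exact add_mem hx hy
    | inv x _ hx => rw [map_inv₀]; exact inv_mem hx
    | mul x y _ _ hx hy => rw [map_mul]; exact mul_mem hx hy
  · rw [IntermediateField.adjoin_le_iff]
    rintro _ ⟨x, hx, rfl⟩
    exact coeffEmb_mem_laurentBaseChange L (IntermediateField.subset_adjoin ℚ S hx)

variable (M : ℕ) [NeZero M] (ℓ : ℕ) [NeZero ℓ]

theorem F1_eq_adjoin_gensQ : F1 M = IntermediateField.adjoin ℚ (Set.range (gensQ M)) := by
  rw [range_gensQ, F1]

theorem gens2Q_mem_heckeField (i : GenIdx M ⊕ GenIdx M) :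
    gens2Q M ℓ i ∈ heckeField (F1 M) ℓ := by
  rcases i with i | i
  · exact le_heckeField (F1 M) ℓ (gensQ_mem_F1 M i)
  · exact qExpand_mem_heckeField (F1 M) ℓ (gensQ_mem_F1 M i)

theorem qExpand_algebraMap_rat (c : ℚ) :
    qExpand ℚ ℓ (algebraMap ℚ (LaurentSeries ℚ) c) = algebraMap ℚ (LaurentSeries ℚ) c := by
  rw [algebraMap_laurentSeries_eq_single, qExpand_single, mul_zero]

theorem qExpand_mem_adjoin_gens2Q {y : LaurentSeries ℚ}
    (hy : y ∈ IntermediateField.adjoin ℚ (Set.range (gensQ M))) :
    qExpand ℚ ℓ y ∈ IntermediateField.adjoin ℚ (Set.range (gens2Q M ℓ)) := by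
  induction hy using IntermediateField.adjoin_induction with
  | mem x hx =>
    obtain ⟨i, rfl⟩ := hx
    exact IntermediateField.subset_adjoin _ _ ⟨Sum.inr i, rfl⟩
  | algebraMap c =>
    rw [qExpand_algebraMap_rat]
    exact IntermediateField.algebraMap_mem _ _
  | add x y _ _ hx hy => rw [map_add]; exact add_mem hx hy
  | inv x _ hx => rw [map_inv₀]; exact inv_mem hx
  | mul x y _ _ hx hy => rw [map_mul]; exact mul_mem hx hy

theorem heckeField_F1_eq :
    heckeField (F1 M) ℓ = IntermediateField.adjoin ℚ (Set.range (gens2Q M ℓ)) := by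
  apply le_antisymm
  · rw [heckeField, IntermediateField.adjoin_le_iff]
    rintro x (hx | ⟨y, hy, rfl⟩)
    · have hx' : x ∈ F1 M := hx
      rw [F1_eq_adjoin_gensQ] at hx'
      refine IntermediateField.adjoin.mono ℚ _ _ ?_ hx'
      rintro _ ⟨i, rfl⟩
      exact ⟨Sum.inl i, rfl⟩
    · have hy' : y ∈ F1 M := hy
      rw [F1_eq_adjoin_gensQ] at hy'
      exact qExpand_mem_adjoin_gens2Q M ℓ hy'
  · rw [IntermediateField.adjoin_le_iff]
    rintro _ ⟨i, rfl⟩
    exact gens2Q_mem_heckeField M ℓ i

theorem laurentBaseChange_heckeField_eq :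
    laurentBaseChange L (heckeField (F1 M) ℓ)
      = IntermediateField.adjoin L (Set.range (gens2L M ℓ L)) := by
  rw [heckeField_F1_eq, laurentBaseChange_adjoin, ← Set.range_comp]
  rfl

/-- A generator as an element of `L · heckeField (F1 M) ℓ`. -/
def gen2BC (i : GenIdx M ⊕ GenIdx M) : laurentBaseChange L (heckeField (F1 M) ℓ) :=
  ⟨gens2L M ℓ L i, coeffEmb_mem_laurentBaseChange L (gens2Q_mem_heckeField M ℓ i)⟩

/-- **The lifted diamond automorphisms** of `L · heckeField (F1 M) ℓ`. -/
theorem exists_heckeAut (hV : VFunStatement) (hM : 3 ≤ M) (u : (ZMod M)ˣ) :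
    ∃ g' : ↥(laurentBaseChange L (heckeField (F1 M) ℓ)) ≃ₐ[L]
        ↥(laurentBaseChange L (heckeField (F1 M) ℓ)),
      ∀ i, g' (gen2BC L M ℓ i) = gen2BC L M ℓ (gen2Perm M u i) := by
  obtain ⟨σ, hσ⟩ := exists_adjoinAut (relStable_gens2L M ℓ L hV hM u)
    (relStable_gens2L M ℓ L hV hM u⁻¹) (gen2Perm_inv_left M u) (gen2Perm_inv_right M u)
  let e := IntermediateField.equivOfEq (laurentBaseChange_heckeField_eq L M ℓ)
  refine ⟨(e.trans σ).trans e.symm, fun i => ?_⟩
  apply Subtype.ext
  have h1 : e (gen2BC L M ℓ i) = dlGenK L (gens2L M ℓ L) i := rfl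
  show ((e.symm (σ (e (gen2BC L M ℓ i))) : _) : LaurentSeries L) = _
  rw [h1]
  exact hσ i

end Gen

/-! ### The diamond automorphisms on generators -/

section Diam

variable (L : Type) [Field L] [Algebra ℚ L] (M : ℕ) [NeZero M]

theorem diamondData_genBC (dd : DiamondData L M) (d : (ZMod M)ˣ) (i : GenIdx M) :
    dd.aut d (genBC L M i) = genBC L M (genPerm M d i) := by
  rcases i with i | a
  · have := neZero_of_dvd_level M i.2
    refine dd.aut_full d (genBC L M (Sum.inl i)) ?_
    exact coeffEmb_mem_laurentBaseChange L (jqd_mem_full M i.2)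
  · exact dd.aut_v d a

/-- Ring homomorphisms out of `L · F1 M` are determined on `L` and on the generators. -/
theorem ringHom_ext_F1 {T : Type*} [Field T] (f₁ f₂ : ↥(laurentBaseChange L (F1 M)) →+* T)
    (hc : ∀ a : L, f₁ (algebraMap L _ a) = f₂ (algebraMap L _ a))
    (hg : ∀ i, f₁ (genBC L M i) = f₂ (genBC L M i)) : f₁ = f₂ := by
  refine ringHom_ext_laurentBaseChange f₁ f₂ hc fun y hy => ?_
  have key : f₁.comp (coeffEmbHom L (F1 M)) = f₂.comp (coeffEmbHom L (F1 M)) := by
    refine ringHom_ext_adjoin _ _ fun z hz => ?_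
    rw [← range_gensQ] at hz
    obtain ⟨i, rfl⟩ := hz
    exact hg i
  exact congrArg (fun f => f ⟨y, hy⟩) key

end Diam

/-! ### The diamond lift -/

/-- **Diamond lift.** -/
theorem diamondLift (hV : VFunStatement) : DiamondLiftStatement := by
  intro M _ hM ℓ _ hℓ hℓM d
  by_cases hdd : Nonempty (DiamondData (AlgebraicClosure ℚ) M)
  · have hdiam : diamondAut (AlgebraicClosure ℚ) M = hdd.some.aut := by
      unfold diamondAut
      rw [dif_pos hdd]
    obtain ⟨g', hg'⟩ := exists_heckeAut (AlgebraicClosure ℚ) M ℓ hV (by omega) d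
    refine ⟨g', fun x => ?_, fun x => ?_⟩
    · have key : (g'.toAlgHom.toRingHom.comp
          (alphaGen (AlgebraicClosure ℚ) (F1 M) ℓ).toRingHom) =
          ((alphaGen (AlgebraicClosure ℚ) (F1 M) ℓ).toRingHom.comp
            (diamondAut (AlgebraicClosure ℚ) M d).toAlgHom.toRingHom) := by
        refine ringHom_ext_F1 (AlgebraicClosure ℚ) M _ _ (fun a => ?_) (fun i => ?_)
        · show g' (alphaGen (AlgebraicClosure ℚ) (F1 M) ℓ (algebraMap _ _ a)) =
            alphaGen (AlgebraicClosure ℚ) (F1 M) ℓ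
              (diamondAut (AlgebraicClosure ℚ) M d (algebraMap _ _ a))
          rw [AlgHom.commutes, AlgEquiv.commutes, AlgEquiv.commutes, AlgHom.commutes]
        · show g' (alphaGen (AlgebraicClosure ℚ) (F1 M) ℓ (genBC _ M i)) =
            alphaGen (AlgebraicClosure ℚ) (F1 M) ℓ
              (diamondAut (AlgebraicClosure ℚ) M d (genBC _ M i))
          rw [hdiam, diamondData_genBC]
          exact hg' (Sum.inl i)
      exact congrArg (fun f => f x) key
    · have key : (g'.toAlgHom.toRingHom.comp
          (betaGen (AlgebraicClosure ℚ) (F1 M) ℓ).toRingHom) =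
          ((betaGen (AlgebraicClosure ℚ) (F1 M) ℓ).toRingHom.comp
            (diamondAut (AlgebraicClosure ℚ) M d).toAlgHom.toRingHom) := by
        refine ringHom_ext_F1 (AlgebraicClosure ℚ) M _ _ (fun a => ?_) (fun i => ?_)
        · show g' (betaGen (AlgebraicClosure ℚ) (F1 M) ℓ (algebraMap _ _ a)) =
            betaGen (AlgebraicClosure ℚ) (F1 M) ℓ
              (diamondAut (AlgebraicClosure ℚ) M d (algebraMap _ _ a))
          rw [AlgHom.commutes, AlgEquiv.commutes, AlgEquiv.commutes, AlgHom.commutes]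
        · show g' (betaGen (AlgebraicClosure ℚ) (F1 M) ℓ (genBC _ M i)) =
            betaGen (AlgebraicClosure ℚ) (F1 M) ℓ
              (diamondAut (AlgebraicClosure ℚ) M d (genBC _ M i))
          rw [hdiam, diamondData_genBC]
          have h1 : ∀ j, betaGen (AlgebraicClosure ℚ) (F1 M) ℓ (genBC _ M j) =
              gen2BC (AlgebraicClosure ℚ) M ℓ (Sum.inr j) := fun j =>
            Subtype.ext (es1_coeffEmb_qExpand _ ℓ (gensQ M j)).symm
          rw [h1, h1]
          exact hg' (Sum.inr i)
      exact congrArg (fun f => f x) key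
  · have hdiam : diamondAut (AlgebraicClosure ℚ) M = 1 := by
      unfold diamondAut
      rw [dif_neg hdd]
    refine ⟨AlgEquiv.refl, fun x => ?_, fun x => ?_⟩
    · rw [hdiam]; rfl
    · rw [hdiam]; rfl

/-- **ES1-GAL.**  `U_ℓ` and the diamond operators commute with `G_ℚ` on the torsion of `J₁(M)`,
and with each other. -/
theorem j1GalHecke (hV : VFunStatement) : J1GalHeckeStatement :=
  j1GalHecke_of_lift (diamondLift hV)

end Fermat.Agent.H61.ES1

end
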